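import Fermat.Prelude.Def_Algebra_PatchingDatum
import Mathlib

set_option autoImplicit false

open Algebra Algebra.PatchingLevel

namespace Fermat.Agent.S57_helper95

variable {𝒪 : Type} [CommRing 𝒪]
    {r : ℕ} {R : Type} [CommRing R] [Algebra 𝒪 R]
    {M : Type} [AddCommGroup M] [Module R M]
    {J : Ideal (MvPowerSeries (Fin r) 𝒪)}

theorem pi_sum (L : Algebra.PatchingLevel 𝒪 r R M J) {ι : Type*} (s : Finset ι)
    (f : ι → MvPowerSeries (Fin r) 𝒪) (x : ι → L.N) :
    L.π (∑ j ∈ s, f j • x j) = ∑ j ∈ s, L.ψ (f j) • L.π (x j) := by
  rw [map_sum]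
  exact Finset.sum_congr rfl fun j _ => L.π_smul _ _

theorem result_of_free [Nontrivial M] (L : Algebra.PatchingLevel 𝒪 r R M J)
    [Module.Free (MvPowerSeries (Fin r) 𝒪) L.N] :
    Module.Free R M ∧ Module.annihilator R M = ⊥ ∧
      RingHom.ker L.ψ = Ideal.span (Set.range fun i : Fin r => L.φ (MvPowerSeries.X i)) := by
  classical
  set S := MvPowerSeries (Fin r) 𝒪 with hS
  set I : Ideal S := Ideal.span (Set.range fun i : Fin r => L.φ (MvPowerSeries.X i)) with hI
  let ι := Module.Free.ChooseBasisIndex S L.N
  let e : Module.Basis ι S L.N := Module.Free.chooseBasis S L.N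
  have hIker : I ≤ RingHom.ker L.ψ := by
    rw [hI, Ideal.span_le]
    rintro _ ⟨i, rfl⟩
    exact L.ψ_φ_X i
  have key : ∀ x : L.N, L.π x = 0 ↔ ∀ j, e.repr x j ∈ I := by
    intro x
    rw [L.ker_π x]
    constructor
    · intro hx
      rw [← e.span_eq, Submodule.mem_ideal_smul_span_iff_exists_sum] at hx
      obtain ⟨a, ha, hax⟩ := hx
      have : e.repr x = a := by
        rw [← hax]
        have : (a.sum fun i c => c • e i) = Finsupp.linearCombination S e a := by
          rw [Finsupp.linearCombination_apply]
        rw [this, e.repr_linearCombination]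
      intro j
      rw [this]
      exact ha j
    · intro hx
      rw [← e.linearCombination_repr x, Finsupp.linearCombination_apply]
      refine Submodule.sum_mem _ fun j _ => ?_
      exact Submodule.smul_mem_smul (hx j) trivial
  have : Nontrivial L.N := L.π_surjective.nontrivial
  have hι : Nonempty ι := e.index_nonempty
  let v : ι → M := fun j => L.π (e j)
  have hli : LinearIndependent R v := by
    rw [linearIndependent_iff]
    intro l hl
    let g : R → S := fun x => if x = 0 then 0 else Function.surjInv L.ψ_surjective x
    have hg0 : g 0 = 0 := by simp [g]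
    have hg : ∀ x, L.ψ (g x) = x := by
      intro x
      by_cases hx : x = 0
      · simp [g, hx]
      · simp only [g, hx, if_false]
        exact Function.surjInv_eq L.ψ_surjective x
    let l' : ι →₀ S := l.mapRange g hg0
    have h1 : L.π (Finsupp.linearCombination S e l') = 0 := by
      rw [Finsupp.linearCombination_apply, Finsupp.sum, pi_sum]
      rw [Finsupp.linearCombination_apply, Finsupp.sum] at hl
      rw [← hl]
      have hsupp : l'.support ⊆ l.support := Finsupp.support_mapRange
      rw [Finset.sum_subset hsupp]
      · refine Finset.sum_congr rfl fun j _ => ?_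
        simp only [l', Finsupp.mapRange_apply, hg, v]
      · intro j _ hj
        have : l' j = 0 := by simpa using hj
        simp [this]
    rw [key] at h1
    ext j
    have h2 := h1 j
    rw [e.repr_linearCombination] at h2
    have h3 := hIker h2
    rw [RingHom.mem_ker] at h3
    simpa [l', hg] using h3
  have hsp : ⊤ ≤ Submodule.span R (Set.range v) := by
    rintro m -
    obtain ⟨x, rfl⟩ := L.π_surjective m
    rw [← e.linearCombination_repr x, Finsupp.linearCombination_apply, Finsupp.sum, pi_sum]
    refine Submodule.sum_mem _ fun j _ => ?_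
    exact Submodule.smul_mem _ _ (Submodule.subset_span ⟨j, rfl⟩)
  have hfree : Module.Free R M := Module.Free.of_basis (Module.Basis.mk hli hsp)
  refine ⟨hfree, ?_, ?_⟩
  · exact Module.annihilator_eq_bot.mpr inferInstance
  · apply le_antisymm _ hIker
    intro f hf
    rw [RingHom.mem_ker] at hf
    obtain ⟨j⟩ := hι
    have h1 : L.π (f • e j) = 0 := by rw [L.π_smul, hf, zero_smul]
    rw [key] at h1
    have h2 := h1 j
    simpa using h2

end Fermat.Agent.S57_helper95
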