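import Mathlib

set_option autoImplicit false

open IsLocalRing

namespace Fermat.Agent.S57_helper95

theorem isFiniteLength_of_residue {𝒪 S T : Type*} [CommRing 𝒪] [IsLocalRing 𝒪] [CommRing S]
    [Algebra 𝒪 S] [IsNoetherianRing S]
    [AddCommGroup T] [Module S T] [Module.Finite S T]
    {d : ℕ} (t : Fin d → T)
    (h1 : ∀ x : T, ∃ a : Fin d → 𝒪, x = ∑ i, algebraMap 𝒪 S (a i) • t i)
    (h2 : ∀ a ∈ maximalIdeal 𝒪, ∀ x : T, algebraMap 𝒪 S a • x = 0) :
    IsFiniteLength S T := by
  classical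
  let _ : Module 𝒪 T := Module.compHom T (algebraMap 𝒪 S)
  have _ : IsScalarTower 𝒪 S T := IsScalarTower.of_algebraMap_smul fun _ _ => rfl
  have _ : Module.Finite 𝒪 T := by
    refine ⟨⟨Finset.univ.image t, ?_⟩⟩
    rw [_root_.eq_top_iff]
    rintro x -
    obtain ⟨a, rfl⟩ := h1 x
    refine Submodule.sum_mem _ fun i _ => ?_
    have : algebraMap 𝒪 S (a i) • t i = a i • t i := rfl
    rw [this]
    refine Submodule.smul_mem _ _ (Submodule.subset_span ?_)
    simp
  have htors : Module.IsTorsionBySet 𝒪 T (maximalIdeal 𝒪 : Set 𝒪) := fun x a => h2 a.1 a.2 x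
  let _ : Module (ResidueField 𝒪) T := htors.module
  have _ : IsScalarTower 𝒪 (ResidueField 𝒪) T := htors.isScalarTower
  have _ : Module.Finite (ResidueField 𝒪) T := Module.Finite.of_restrictScalars_finite 𝒪 _ _
  have _ : IsArtinian (ResidueField 𝒪) T := inferInstance
  have _ : IsArtinian 𝒪 T :=
    isArtinian_of_surjective_algebraMap (S := 𝒪) (R := ResidueField 𝒪) (M := T)
      Ideal.Quotient.mk_surjective
  have _ : IsArtinian S T := isArtinian_of_tower 𝒪 inferInstance
  exact isFiniteLength_iff_isNoetherian_isArtinian.mpr ⟨inferInstance, inferInstance⟩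

end Fermat.Agent.S57_helper95
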