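import Fermat.Agent.S57_helper95.ProjDim
import Fermat.Agent.S57_helper95.Assembly
import Fermat.Agent.S57_helper95.FinLen

set_option autoImplicit false

open Algebra Algebra.PatchingLevel IsLocalRing RingTheory.Sequence

namespace Fermat.Agent.S57_helper95

section general

variable {𝒪 : Type} [CommRing 𝒪]
    {r : ℕ} {R : Type} [CommRing R] [Algebra 𝒪 R]
    {M : Type} [AddCommGroup M] [Module R M]

/-- Piece B: `N` is finitely generated. -/
theorem finite_N {J : Ideal (MvPowerSeries (Fin r) 𝒪)} (L : Algebra.PatchingLevel 𝒪 r R M J) :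
    Module.Finite (MvPowerSeries (Fin r) 𝒪) L.N := by
  classical
  refine ⟨⟨Finset.univ.image L.b, ?_⟩⟩
  rw [_root_.eq_top_iff]
  rintro x -
  obtain ⟨c, rfl⟩ := L.b_span x
  refine Submodule.sum_mem _ fun i _ => ?_
  refine Submodule.smul_mem _ _ (Submodule.subset_span ?_)
  simp

/-- Piece C: `φ` is a local homomorphism. -/
theorem phi_mem_maximalIdeal [IsLocalRing 𝒪]
    (φ : MvPowerSeries (Fin r) 𝒪 →ₐ[𝒪] MvPowerSeries (Fin r) 𝒪)
    (f : MvPowerSeries (Fin r) 𝒪) (hf : f ∈ maximalIdeal (MvPowerSeries (Fin r) 𝒪)) :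
    φ f ∈ maximalIdeal (MvPowerSeries (Fin r) 𝒪) := by
  rw [mem_maximalIdeal, mem_nonunits_iff] at hf ⊢
  intro hu
  have ha : IsUnit (MvPowerSeries.constantCoeff (φ f)) :=
    MvPowerSeries.isUnit_iff_constantCoeff.mp hu
  set a : 𝒪 := MvPowerSeries.constantCoeff (φ f) with ha_def
  have hf' : ¬ IsUnit (MvPowerSeries.constantCoeff f) := fun h =>
    hf (MvPowerSeries.isUnit_iff_constantCoeff.mpr h)
  have hg : IsUnit (f - MvPowerSeries.C a) := by
    rw [MvPowerSeries.isUnit_iff_constantCoeff, map_sub, MvPowerSeries.constantCoeff_C]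
    by_contra hcon
    have h1 : MvPowerSeries.constantCoeff f ∈ maximalIdeal 𝒪 := hf'
    have h2 : MvPowerSeries.constantCoeff f - a ∈ maximalIdeal 𝒪 := hcon
    have h3 : a ∈ maximalIdeal 𝒪 := by
      have := (maximalIdeal 𝒪).sub_mem h1 h2
      simpa using this
    exact h3 ha
  have hφg : IsUnit (φ (f - MvPowerSeries.C a)) := hg.map φ
  have hC : φ (MvPowerSeries.C a) = MvPowerSeries.C a := by
    have := φ.commutes a
    simpa [MvPowerSeries.algebraMap_apply] using this
  rw [map_sub, hC, MvPowerSeries.isUnit_iff_constantCoeff, map_sub,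
    MvPowerSeries.constantCoeff_C, ← ha_def, sub_self] at hφg
  exact not_isUnit_zero hφg

/-- The `φ`-semilinear additive bijection `S^d ≃ N`. -/
noncomputable def coordEquiv (L : Algebra.PatchingLevel 𝒪 r R M ⊥) :
    (Fin L.d → MvPowerSeries (Fin r) 𝒪) ≃+ L.N :=
  AddEquiv.ofBijective
    ({ toFun := fun c => ∑ i, L.φ (c i) • L.b i
       map_zero' := by simp
       map_add' := fun c c' => by
        simp only [Pi.add_apply, map_add, add_smul, Finset.sum_add_distrib] } :
      (Fin L.d → MvPowerSeries (Fin r) 𝒪) →+ L.N)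
    (by
      constructor
      · rw [injective_iff_map_eq_zero]
        intro c hc
        have := (L.b_rel c).mp hc
        funext i
        simpa using this i
      · intro x
        obtain ⟨c, hc⟩ := L.b_span x
        exact ⟨c, hc.symm⟩)

theorem coordEquiv_apply (L : Algebra.PatchingLevel 𝒪 r R M ⊥)
    (c : Fin L.d → MvPowerSeries (Fin r) 𝒪) :
    coordEquiv L c = ∑ i, L.φ (c i) • L.b i := rfl

theorem coordEquiv_smul (L : Algebra.PatchingLevel 𝒪 r R M ⊥)
    (f : MvPowerSeries (Fin r) 𝒪) (c : Fin L.d → MvPowerSeries (Fin r) 𝒪) :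
    coordEquiv L (f • c) = L.φ f • coordEquiv L c := by
  simp only [coordEquiv_apply, Pi.smul_apply, smul_eq_mul, map_mul, mul_smul, Finset.smul_sum]

/-- Piece D: transfer of weakly regular sequences. -/
theorem isWeaklyRegular_map_phi (L : Algebra.PatchingLevel 𝒪 r R M ⊥)
    (rs : List (MvPowerSeries (Fin r) 𝒪))
    (hrs : IsWeaklyRegular (MvPowerSeries (Fin r) 𝒪) rs) :
    IsWeaklyRegular L.N (rs.map L.φ) := by
  have h1 := hrs.isWeaklyRegular_lTensor (M₂ := Fin L.d → MvPowerSeries (Fin r) 𝒪)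
  have h2 : IsWeaklyRegular (Fin L.d → MvPowerSeries (Fin r) 𝒪) rs :=
    ((TensorProduct.rid (MvPowerSeries (Fin r) 𝒪)
      (Fin L.d → MvPowerSeries (Fin r) 𝒪)).isWeaklyRegular_congr rs).mp h1
  refine (AddEquiv.isWeaklyRegular_congr (e := coordEquiv L) ?_).mp h2
  rw [List.forall₂_map_right_iff, List.forall₂_same]
  intro f _ c
  exact coordEquiv_smul L f c

theorem phi_mem_ofList_map (φ : MvPowerSeries (Fin r) 𝒪 →ₐ[𝒪] MvPowerSeries (Fin r) 𝒪)
    (rs : List (MvPowerSeries (Fin r) 𝒪)) (f : MvPowerSeries (Fin r) 𝒪)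
    (hf : f ∈ Ideal.ofList rs) : φ f ∈ Ideal.ofList (rs.map φ) := by
  have h := Ideal.mem_map_of_mem (φ : MvPowerSeries (Fin r) 𝒪 →+* MvPowerSeries (Fin r) 𝒪) hf
  rw [Ideal.map_ofList] at h
  exact h

/-- Piece E: the quotient has finite length. -/
theorem isFiniteLength_quot [IsLocalRing 𝒪] [IsNoetherianRing 𝒪]
    (L : Algebra.PatchingLevel 𝒪 r R M ⊥)
    (rs : List (MvPowerSeries (Fin r) 𝒪))
    (hrsm : Ideal.ofList rs = maximalIdeal (MvPowerSeries (Fin r) 𝒪)) :
    IsFiniteLength (MvPowerSeries (Fin r) 𝒪)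
      (L.N ⧸ Ideal.ofList (rs.map L.φ) • (⊤ : Submodule (MvPowerSeries (Fin r) 𝒪) L.N)) := by
  have hfin := finite_N L
  have hkill : ∀ f ∈ maximalIdeal (MvPowerSeries (Fin r) 𝒪), ∀ n : L.N,
      L.φ f • n ∈ Ideal.ofList (rs.map L.φ) • (⊤ : Submodule (MvPowerSeries (Fin r) 𝒪) L.N) := by
    intro f hf n
    rw [← hrsm] at hf
    exact Submodule.smul_mem_smul (phi_mem_ofList_map L.φ rs f hf) trivial
  have hφC : ∀ a : 𝒪, L.φ (MvPowerSeries.C a) = MvPowerSeries.C a := by
    intro a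
    have := L.φ.commutes a
    simpa [MvPowerSeries.algebraMap_apply] using this
  refine isFiniteLength_of_residue (𝒪 := 𝒪) (d := L.d)
    (fun i => Submodule.Quotient.mk (L.b i)) ?_ ?_
  · intro x
    obtain ⟨n, rfl⟩ := Submodule.Quotient.mk_surjective _ x
    obtain ⟨c, rfl⟩ := L.b_span n
    refine ⟨fun i => MvPowerSeries.constantCoeff (c i), ?_⟩
    simp only [← Submodule.mkQ_apply, ← map_smul, ← map_sum]
    rw [← sub_eq_zero, ← map_sub, Submodule.mkQ_apply, Submodule.Quotient.mk_eq_zero,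
      ← Finset.sum_sub_distrib]
    refine Submodule.sum_mem _ fun i _ => ?_
    rw [← sub_smul, MvPowerSeries.algebraMap_apply, Algebra.algebraMap_self, RingHom.id_apply,
      ← hφC, ← map_sub]
    apply hkill
    rw [mem_maximalIdeal, mem_nonunits_iff, MvPowerSeries.isUnit_iff_constantCoeff, map_sub,
      MvPowerSeries.constantCoeff_C, sub_self]
    exact not_isUnit_zero
  · intro a ha x
    obtain ⟨n, rfl⟩ := Submodule.Quotient.mk_surjective _ x
    rw [← Submodule.Quotient.mk_smul, Submodule.Quotient.mk_eq_zero,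
      MvPowerSeries.algebraMap_apply, Algebra.algebraMap_self, RingHom.id_apply, ← hφC]
    apply hkill
    rw [mem_maximalIdeal, mem_nonunits_iff, MvPowerSeries.isUnit_iff_constantCoeff,
      MvPowerSeries.constantCoeff_C]
    exact ha

theorem free_N [IsLocalRing 𝒪] [IsNoetherianRing 𝒪] [Nontrivial M]
    (L : Algebra.PatchingLevel 𝒪 r R M ⊥)
    (rs : List (MvPowerSeries (Fin r) 𝒪))
    (hrs : IsRegular (MvPowerSeries (Fin r) 𝒪) rs)
    (hrsm : Ideal.ofList rs = maximalIdeal (MvPowerSeries (Fin r) 𝒪)) :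
    Module.Free (MvPowerSeries (Fin r) 𝒪) L.N := by
  have hfin := finite_N L
  have : Nontrivial L.N := L.π_surjective.nontrivial
  refine free_of_isWeaklyRegular rs hrs hrsm L.N (rs.map L.φ)
    (isWeaklyRegular_map_phi L rs hrs.toIsWeaklyRegular) ?_ (by simp)
    (isFiniteLength_quot L rs hrsm)
  intro y hy
  obtain ⟨f, hf, rfl⟩ := List.mem_map.mp hy
  apply phi_mem_maximalIdeal
  rw [← hrsm]
  exact Ideal.subset_span hf

theorem result_of_regular_generators [IsLocalRing 𝒪] [IsNoetherianRing 𝒪] [Nontrivial M]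
    (L : Algebra.PatchingLevel 𝒪 r R M ⊥)
    (h : ∃ rs : List (MvPowerSeries (Fin r) 𝒪),
      IsRegular (MvPowerSeries (Fin r) 𝒪) rs ∧
      Ideal.ofList rs = maximalIdeal (MvPowerSeries (Fin r) 𝒪)) :
    Module.Free R M ∧ Module.annihilator R M = ⊥ ∧
      RingHom.ker L.ψ = Ideal.span (Set.range fun i : Fin r => L.φ (MvPowerSeries.X i)) := by
  obtain ⟨rs, hrs, hrsm⟩ := h
  have := free_N L rs hrs hrsm
  exact result_of_free L

end general

end Fermat.Agent.S57_helper95
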