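import Mathlib

set_option autoImplicit false

open CategoryTheory Abelian IsLocalRing RingTheory.Sequence

namespace Fermat.Agent.S57_helper95

universe u

variable {R : Type u} [CommRing R] [IsLocalRing R]

theorem hasProjDimLT_of_isFiniteLength (n : ℕ)
    (hk : HasProjectiveDimensionLT (ModuleCat.of R (R ⧸ maximalIdeal R)) n)
    (T : Type u) [AddCommGroup T] [Module R T] (hT : IsFiniteLength R T) :
    HasProjectiveDimensionLT (ModuleCat.of R T) n := by
  induction hT with
  | of_subsingleton =>
    rename_i M _ _ _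
    have hz : Limits.IsZero (ModuleCat.of R M) :=
      ModuleCat.isZero_of_subsingleton _
    have := hz.hasProjectiveDimensionLT_zero
    exact hasProjectiveDimensionLT_of_ge _ 0 n (Nat.zero_le n)
  | of_simple_quotient hN ih =>
    rename_i M _ _ N hsimple
    let f : M →ₗ[R] (M ⧸ N) := N.mkQ
    have hf : Function.Surjective f := N.mkQ_surjective
    have hS := LinearMap.shortExact_shortComplexKer hf
    obtain ⟨I, hI, ⟨e⟩⟩ := isSimpleModule_iff_quot_maximal.mp hsimple
    have hIm : I = maximalIdeal R := IsLocalRing.eq_maximalIdeal hI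
    subst hIm
    have h3 : HasProjectiveDimensionLT (ModuleCat.of R (M ⧸ N)) n :=
      hasProjectiveDimensionLT_of_iso (e.symm.toModuleIso) n
    have e1 : N ≃ₗ[R] LinearMap.ker f := LinearEquiv.ofEq _ _ (by simp [f])
    have h1 : HasProjectiveDimensionLT (ModuleCat.of R (LinearMap.ker f)) n :=
      hasProjectiveDimensionLT_of_iso (e1.toModuleIso) n
    exact hS.hasProjectiveDimensionLT_X₂ n h1 h3

theorem free_of_isWeaklyRegular [IsNoetherianRing R]
    (rs : List R) (hrs : IsRegular R rs) (hrsm : Ideal.ofList rs = maximalIdeal R)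
    (N : Type u) [AddCommGroup N] [Module R N] [Module.Finite R N] [Nontrivial N]
    (ys : List R) (hys : IsWeaklyRegular N ys) (hysm : ∀ y ∈ ys, y ∈ maximalIdeal R)
    (hlen : ys.length = rs.length)
    (hT : IsFiniteLength R (N ⧸ Ideal.ofList ys • (⊤ : Submodule R N))) :
    Module.Free R N := by
  have h1 := ModuleCat.projectiveDimension_quotient_eq_add_length_of_isWeaklyRegular
    (ModuleCat.of R N) ys hys hysm
  have h2 := ModuleCat.projectiveDimension_quotient_eq_length.{u} rs hrs
  have e2 : Shrink.{u} (R ⧸ Ideal.ofList rs) ≃ₗ[R] (R ⧸ maximalIdeal R) :=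
    (Shrink.linearEquiv R _).trans (Submodule.quotEquivOfEq _ _ hrsm)
  have h3 : projectiveDimension (ModuleCat.of R (R ⧸ maximalIdeal R)) = rs.length := by
    rw [← h2]
    exact (ModuleCat.projectiveDimension_eq_of_linearEquiv
      (M := ModuleCat.of R (Shrink.{u} (R ⧸ Ideal.ofList rs)))
      (N := ModuleCat.of R (R ⧸ maximalIdeal R)) e2).symm
  have h4 : HasProjectiveDimensionLT (ModuleCat.of R (R ⧸ maximalIdeal R)) (rs.length + 1) := by
    have : projectiveDimension (ModuleCat.of R (R ⧸ maximalIdeal R)) ≤ (rs.length : ℕ) := by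
      rw [h3]
    exact (projectiveDimension_le_iff _ _).mp this
  have h5 := hasProjDimLT_of_isFiniteLength (rs.length + 1) h4 _ hT
  have h6 : projectiveDimension (ModuleCat.of R (N ⧸ Ideal.ofList ys • (⊤ : Submodule R N)))
      ≤ (rs.length : ℕ) := (projectiveDimension_le_iff _ _).mpr h5
  rw [h1, hlen] at h6
  have h7 : projectiveDimension (ModuleCat.of R N) ≤ (0 : ℕ) := by
    have : projectiveDimension (ModuleCat.of R N) + (rs.length : ℕ) ≤ (0 : ℕ) + (rs.length : ℕ) := by
      simpa using h6
    exact (ENat.WithBot.add_le_add_natCast_right_iff).mp this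
  have h8 : HasProjectiveDimensionLE (ModuleCat.of R N) 0 := (projectiveDimension_le_iff _ _).mp h7
  have h9 : Projective (ModuleCat.of R N) := (projective_iff_hasProjectiveDimensionLE_zero _).mpr h8
  have h10 : Module.Projective R N := (IsProjective.iff_projective (R := R) (P := N)).mpr h9
  exact Module.free_of_flat_of_isLocalRing

end Fermat.Agent.S57_helper95
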